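import Mathlib
import Fermat.Agent.LT.T2.H973.ArchSpec

/-!
# Row LT, tower T2, leaf T2.10.08.08 = R3 `SubstC` (helper59), OFF-MAIN

`substC59 : H973.SubstC` VERBATIM (sub-spec of helper973, `LT/T2/H973/ArchSpec.lean`).

Substitution `t = -log D(β)`, `D(β) = cosh d - cos β sinh d`, on `[0, π]`:
`t(0) = d`, `t(π) = -d`, `t'(β) = -(sin β sinh d) / D`, `e^{-t} = D`,
`√(2 eᵗ (cosh d - cosh t)) = sin β sinh d / D` (`sin β ≥ 0`), hence
`∫₀^π J(k eˢ sin β sinh d / D) F(s - log D) sin β dβ
    = (sinh d)⁻¹ ∫_{-d}^{d} J(k eˢ √(2 eᵗ (cosh d - cosh t))) F(s + t) e^{-t} dt`.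
The hypothesis `0 ≤ k` is not used.
-/

set_option autoImplicit false

open MeasureTheory

noncomputable section

namespace Fermat.Agent.LT.T2.H59

open Fermat.Agent.LT.T2.H973

/-- `besJ` is continuous. -/
theorem continuous_besJ59 : Continuous besJ := by
  unfold besJ
  refine continuous_const.mul ?_
  refine intervalIntegral.continuous_parametric_intervalIntegral_of_continuous'
    (f := fun (z : ℝ) (α : ℝ) => Complex.exp (Complex.I * ((z * Real.cos α : ℝ) : ℂ))) ?_ 0
      (2 * Real.pi)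
  have h1 : Continuous fun p : ℝ × ℝ => ((p.1 * Real.cos p.2 : ℝ) : ℂ) :=
    Complex.continuous_ofReal.comp (continuous_fst.mul (Real.continuous_cos.comp continuous_snd))
  exact Complex.continuous_exp.comp (continuous_const.mul h1)

/-- `D(β, d) > 0`. -/
theorem sphD_pos59 (β d : ℝ) : 0 < sphD β d := by
  unfold sphD
  rw [Real.cosh_eq, Real.sinh_eq]
  have h1 := Real.exp_pos d
  have h2 := Real.exp_pos (-d)
  have h3 := Real.neg_one_le_cos β
  have h4 := Real.cos_le_one β
  nlinarith [mul_nonneg (sub_nonneg.mpr h4) h1.le,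
    mul_nonneg (by linarith : (0 : ℝ) ≤ 1 + Real.cos β) h2.le, mul_pos h1 h2]

theorem sphD_zero59 (d : ℝ) : sphD 0 d = Real.exp (-d) := by
  unfold sphD
  rw [Real.cos_zero, one_mul, Real.cosh_sub_sinh]

theorem sphD_pi59 (d : ℝ) : sphD Real.pi d = Real.exp d := by
  unfold sphD
  rw [Real.cos_pi, neg_one_mul, sub_neg_eq_add, Real.cosh_add_sinh]

theorem continuous_sphD59 (d : ℝ) : Continuous fun β : ℝ => sphD β d := by
  unfold sphD
  exact continuous_const.sub (Real.continuous_cos.mul continuous_const)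

theorem hasDerivAt_sphD59 (d β : ℝ) :
    HasDerivAt (fun β : ℝ => sphD β d) (Real.sin β * Real.sinh d) β := by
  unfold sphD
  have h := ((Real.hasDerivAt_cos β).mul_const (Real.sinh d)).const_sub (Real.cosh d)
  have e : -(-Real.sin β * Real.sinh d) = Real.sin β * Real.sinh d := by ring
  rw [e] at h
  exact h

/-- The substitution `t(β) = -log D(β)`. -/
def tau59 (d β : ℝ) : ℝ := -Real.log (sphD β d)

theorem hasDerivAt_tau59 (d β : ℝ) :
    HasDerivAt (tau59 d) (-(Real.sin β * Real.sinh d / sphD β d)) β := by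
  unfold tau59
  exact ((hasDerivAt_sphD59 d β).log (sphD_pos59 β d).ne').neg

theorem tau_zero59 (d : ℝ) : tau59 d 0 = d := by
  unfold tau59
  rw [sphD_zero59, Real.log_exp, neg_neg]

theorem tau_pi59 (d : ℝ) : tau59 d Real.pi = -d := by
  unfold tau59
  rw [sphD_pi59, Real.log_exp]

theorem exp_neg_tau59 (d β : ℝ) : Real.exp (-tau59 d β) = sphD β d := by
  unfold tau59
  rw [neg_neg, Real.exp_log (sphD_pos59 β d)]

theorem exp_tau59 (d β : ℝ) : Real.exp (tau59 d β) = (sphD β d)⁻¹ := by
  unfold tau59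
  rw [Real.exp_neg, Real.exp_log (sphD_pos59 β d)]

/-- `sin² β sinh² d = 2 D cosh d - D² - 1`. -/
theorem sin_sq_mul59 (β d : ℝ) :
    (Real.sin β * Real.sinh d) ^ 2
      = 2 * sphD β d * Real.cosh d - sphD β d ^ 2 - 1 := by
  unfold sphD
  have h1 := Real.cosh_sq d
  have h2 := Real.sin_sq_add_cos_sq β
  have h3 : Real.sin β ^ 2 = 1 - Real.cos β ^ 2 := by linarith
  have h4 : (Real.sin β * Real.sinh d) ^ 2 = (1 - Real.cos β ^ 2) * Real.sinh d ^ 2 := by
    rw [mul_pow, h3]
  rw [h4]
  nlinarith [h1]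

/-- The radial argument: `√(2 eᵗ (cosh d - cosh t)) = sin β sinh d / D` at `t = t(β)`,
`0 ≤ β ≤ π`, `0 < d`. -/
theorem sqrt_tau59 (d β : ℝ) (hd : 0 < d) (h0 : 0 ≤ β) (hπ : β ≤ Real.pi) :
    Real.sqrt (2 * Real.exp (tau59 d β) * (Real.cosh d - Real.cosh (tau59 d β)))
      = Real.sin β * Real.sinh d / sphD β d := by
  have hD := sphD_pos59 β d
  have hsin : 0 ≤ Real.sin β := Real.sin_nonneg_of_nonneg_of_le_pi h0 hπ
  have hsinh : 0 < Real.sinh d := Real.sinh_pos_iff.mpr hd
  have hx : 0 ≤ Real.sin β * Real.sinh d / sphD β d :=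
    div_nonneg (mul_nonneg hsin hsinh.le) hD.le
  have hcosh : Real.cosh (tau59 d β) = ((sphD β d)⁻¹ + sphD β d) / 2 := by
    rw [Real.cosh_eq, exp_tau59, exp_neg_tau59]
  have key : 2 * Real.exp (tau59 d β) * (Real.cosh d - Real.cosh (tau59 d β))
      = (Real.sin β * Real.sinh d / sphD β d) ^ 2 := by
    rw [hcosh, exp_tau59, div_pow, sin_sq_mul59]
    field_simp
    ring
  rw [key, Real.sqrt_sq hx]

/-- **R3 `SubstC`**, VERBATIM. -/
theorem substC59 : SubstC := by
  intro k F _ hF
  obtain ⟨hFc, hF⟩ := hF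
  have hexpc : Continuous fun s : ℝ => ((Real.exp (-s) : ℝ) : ℂ) :=
    Complex.continuous_ofReal.comp (Real.continuous_exp.comp continuous_neg)
  refine ⟨hexpc.mul hFc, ?_⟩
  intro s d hd
  have hsinh : 0 < Real.sinh d := Real.sinh_pos_iff.mpr hd
  -- the integrand in the variable `t`
  set g : ℝ → ℂ := fun t =>
    besJ (k * Real.exp s * Real.sqrt (2 * Real.exp t * (Real.cosh d - Real.cosh t)))
      * F (s + t) * ((Real.exp (-t) : ℝ) : ℂ) with hg
  have hgc : Continuous g := by
    have h1 : Continuous fun t : ℝ =>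
        k * Real.exp s * Real.sqrt (2 * Real.exp t * (Real.cosh d - Real.cosh t)) :=
      continuous_const.mul (Real.continuous_sqrt.comp
        ((continuous_const.mul Real.continuous_exp).mul
          (continuous_const.sub Real.continuous_cosh)))
    exact ((continuous_besJ59.comp h1).mul
      (hFc.comp (continuous_const.add continuous_id))).mul hexpc
  -- change of variables
  have hcv : (∫ β in (0 : ℝ)..Real.pi,
      (-(Real.sin β * Real.sinh d / sphD β d)) • (g ∘ tau59 d) β)
        = ∫ t in tau59 d 0..tau59 d Real.pi, g t := by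
    refine intervalIntegral.integral_deriv_smul_comp
      (fun β _ => hasDerivAt_tau59 d β) ?_ hgc
    refine Continuous.continuousOn ?_
    exact ((Real.continuous_sin.mul continuous_const).div (continuous_sphD59 d)
      (fun β => (sphD_pos59 β d).ne')).neg
  rw [tau_zero59, tau_pi59, intervalIntegral.integral_symm (-d) d] at hcv
  -- the left side is `- sinh d` times the `β`-integral
  have hL : (∫ β in (0 : ℝ)..Real.pi,
      (-(Real.sin β * Real.sinh d / sphD β d)) • (g ∘ tau59 d) β)
        = -((Real.sinh d : ℝ) : ℂ) * ∫ β in (0 : ℝ)..Real.pi,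
            besJ (k * Real.exp s * Real.sin β * Real.sinh d / sphD β d)
              * F (s - Real.log (sphD β d)) * ((Real.sin β : ℝ) : ℂ) := by
    rw [← intervalIntegral.integral_const_mul]
    refine intervalIntegral.integral_congr ?_
    intro β hβ
    rw [Set.uIcc_of_le Real.pi_pos.le] at hβ
    have hD := sphD_pos59 β d
    have hsq := sqrt_tau59 d β hd hβ.1 hβ.2
    have harg : k * Real.exp s * Real.sqrt
        (2 * Real.exp (tau59 d β) * (Real.cosh d - Real.cosh (tau59 d β)))
          = k * Real.exp s * Real.sin β * Real.sinh d / sphD β d := by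
      rw [hsq]; ring
    have hst : s + tau59 d β = s - Real.log (sphD β d) := by
      unfold tau59; ring
    simp only [Function.comp_apply, hg, harg, hst, exp_neg_tau59, Complex.real_smul]
    have hDc : ((sphD β d : ℝ) : ℂ) ≠ 0 := Complex.ofReal_ne_zero.mpr hD.ne'
    push_cast
    field_simp
  rw [hL, hF s d hd] at hcv
  -- conclude
  have hsc : ((Real.sinh d : ℝ) : ℂ) ≠ 0 := Complex.ofReal_ne_zero.mpr hsinh.ne'
  have hG : (∫ t in (-d)..d, g t) = ((2 * d : ℝ) : ℂ) * F s := by
    have h2 : -((Real.sinh d : ℝ) : ℂ) * (((2 * (d / Real.sinh d) : ℝ) : ℂ) * F s)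
        = -(((2 * d : ℝ) : ℂ) * F s) := by
      have e1 : ((2 * (d / Real.sinh d) : ℝ) : ℂ)
          = 2 * ((d : ℝ) : ℂ) / ((Real.sinh d : ℝ) : ℂ) := by
        rw [Complex.ofReal_mul, Complex.ofReal_div, Complex.ofReal_ofNat, mul_div_assoc]
      have e2 : ((2 * d : ℝ) : ℂ) = 2 * ((d : ℝ) : ℂ) := by
        rw [Complex.ofReal_mul, Complex.ofReal_ofNat]
      rw [e1, e2]
      field_simp
    rw [h2] at hcv
    exact (neg_injective hcv).symm
  have hR : (∫ t in (-d)..d,
      besJ (k * Real.exp s * Real.sqrt (2 * Real.exp t * (Real.cosh d - Real.cosh t)))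
        * (fun s => ((Real.exp (-s) : ℝ) : ℂ) * F s) (s + t))
        = ((Real.exp (-s) : ℝ) : ℂ) * ∫ t in (-d)..d, g t := by
    rw [← intervalIntegral.integral_const_mul]
    refine intervalIntegral.integral_congr ?_
    intro t _
    simp only [hg]
    have : Real.exp (-(s + t)) = Real.exp (-s) * Real.exp (-t) := by
      rw [← Real.exp_add]; congr 1; ring
    rw [this]
    push_cast
    ring
  rw [hR, hG]
  ring

end Fermat.Agent.LT.T2.H59

end
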